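import Mathlib

/-!
# S55 / GR-1a : characters of a finite abelian group with large `p`-power orders at given elements

If `G` is a finite commutative group and `x i` (`i ∈ s`) are elements whose orders are divisible
by `p ^ (J + #s)`, there is a character `χ : G →* ℂˣ` such that `p ^ J ∣ orderOf (χ (x i))` for all
`i ∈ s` simultaneously (union bound on the dual group).
-/

set_option autoImplicit false

namespace Fermat.Agent.S55.GR

open Finset

/-- If `p ^ (J + r) ∣ orderOf x` and `c` is prime to `p`, then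
`p ^ (r + 1) ∣ orderOf (x ^ (p ^ (J - 1) * c))` for `J ≥ 1`. -/
lemma pow_dvd_orderOf_pow {G : Type*} [Monoid G] {p : ℕ} (hp : p.Prime) {x : G} {J r c : ℕ}
    (hJ : 1 ≤ J) (hc : Nat.Coprime p c) (hc0 : c ≠ 0)
    (hx : p ^ (J + r) ∣ orderOf x) :
    p ^ (r + 1) ∣ orderOf (x ^ (p ^ (J - 1) * c)) := by
  set k := p ^ (J - 1) * c with hk
  have hk0 : k ≠ 0 := mul_ne_zero (pow_pos hp.pos _).ne' hc0
  rw [orderOf_pow' x hk0]
  set o := orderOf x with ho
  set g := Nat.gcd o k with hg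
  have hgo : g ∣ o := Nat.gcd_dvd_left o k
  have hgk : g ∣ k := Nat.gcd_dvd_right o k
  obtain ⟨t, ht⟩ := hgk
  have hg0 : g ≠ 0 := by
    intro h0
    rw [h0, zero_mul] at ht
    exact hk0 ht
  -- `o * t = k * (o / g)`
  have h1 : o * t = k * (o / g) := by
    have hod : o = g * (o / g) := (Nat.mul_div_cancel' hgo).symm
    calc o * t = g * (o / g) * t := by rw [← hod]
      _ = g * t * (o / g) := by ring
      _ = k * (o / g) := by rw [← ht]
  have h2 : p ^ (J + r) ∣ k * (o / g) := h1 ▸ dvd_mul_of_dvd_left hx t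
  have h3 : p ^ (J - 1) * p ^ (r + 1) ∣ p ^ (J - 1) * (c * (o / g)) := by
    have : p ^ (J - 1) * p ^ (r + 1) = p ^ (J + r) := by
      rw [← pow_add]; congr 1; omega
    rw [this, ← mul_assoc]
    exact h2
  have h4 : p ^ (r + 1) ∣ c * (o / g) :=
    Nat.dvd_of_mul_dvd_mul_left (pow_pos hp.pos _) h3
  exact (Nat.Coprime.pow_left (r + 1) hc).dvd_of_dvd_mul_left h4

/-- If `p ^ J ∤ n`, `n ∣ N`, `n ≠ 0`, `J ≥ 1`, then `n ∣ p ^ (J - 1) * (N / p ^ v_p(N))`. -/
lemma dvd_of_not_pow_dvd {p : ℕ} (hp : p.Prime) {n N J : ℕ} (hN : N ≠ 0) (hnN : n ∣ N)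
    (hJ : ¬ p ^ J ∣ n) : n ∣ p ^ (J - 1) * (N / p ^ N.factorization p) := by
  have hn0 : n ≠ 0 := fun h => hN (by rw [h] at hnN; exact zero_dvd_iff.1 hnN)
  have hv : n.factorization p < J := by
    by_contra hge
    push Not at hge
    exact hJ ((hp.pow_dvd_iff_le_factorization hn0).2 hge)
  have hprod := Nat.ordProj_mul_ordCompl_eq_self n p
  rw [← hprod]
  apply Nat.mul_dvd_mul
  · exact pow_dvd_pow p (by omega)
  · exact Nat.ordCompl_dvd_ordCompl_of_dvd hnN p

/-- **GR-1a.** Characters with large `p`-power order at finitely many prescribed elements. -/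
theorem exists_character_pow_dvd_orderOf {G : Type*} [CommGroup G] [Finite G] {p : ℕ}
    [hpf : Fact p.Prime] (J : ℕ) {ι : Type*} (s : Finset ι) (x : ι → G)
    (hx : ∀ i ∈ s, p ^ (J + s.card) ∣ orderOf (x i)) :
    ∃ χ : G →* ℂˣ, ∀ i ∈ s, p ^ J ∣ orderOf (χ (x i)) := by
  classical
  have hpp := hpf.out
  rcases Nat.eq_zero_or_pos J with hJ0 | hJpos
  · exact ⟨1, fun i _ => by simp [hJ0]⟩
  set N := Nat.card G with hNdef
  have hN0 : N ≠ 0 := Nat.card_pos.ne'
  set c := N / p ^ N.factorization p with hcdef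
  have hc0 : c ≠ 0 := by
    have h := Nat.ordProj_mul_ordCompl_eq_self N p
    intro h0
    rw [← hcdef, h0, mul_zero] at h
    exact hN0 h.symm
  have hcop : Nat.Coprime p c := Nat.coprime_ordCompl hpp hN0
  set r := s.card with hr
  let y : ι → G := fun i => x i ^ (p ^ (J - 1) * c)
  let H : ι → Subgroup G := fun i => Subgroup.zpowers (y i)
  let K : ι → Subgroup (G →* ℂˣ) := fun i => (MonoidHom.domRestrictHom (H i) ℂˣ).ker
  -- bad characters at `i` lie in `K i`
  have hbad : ∀ i, ∀ χ : G →* ℂˣ, ¬ p ^ J ∣ orderOf (χ (x i)) → χ ∈ K i := by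
    intro i χ hχ
    have hdvdN : orderOf (χ (x i)) ∣ N :=
      dvd_trans (orderOf_map_dvd χ (x i)) (orderOf_dvd_natCard (x i))
    have h1 := dvd_of_not_pow_dvd hpp hN0 hdvdN hχ
    have h2 : χ (y i) = 1 := by
      show χ (x i ^ (p ^ (J - 1) * c)) = 1
      rw [map_pow]
      exact orderOf_dvd_iff_pow_eq_one.1 h1
    rw [MonoidHom.mem_ker]
    ext ⟨z, hz⟩
    obtain ⟨n, rfl⟩ := Subgroup.mem_zpowers_iff.1 hz
    simp only [MonoidHom.domRestrictHom_apply, MonoidHom.domRestrict_apply, MonoidHom.one_apply]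
    rw [map_zpow, h2, one_zpow]
  -- cardinality of `K i`
  have hcardK : ∀ i ∈ s, Nat.card (K i) * p ^ (r + 1) ≤ N := by
    intro i hi
    have h1 : Nat.card (K i) = Nat.card (G ⧸ H i) := CommGroup.card_domRestrictHom_ker ℂ (H i)
    have h2 : Nat.card G = Nat.card (G ⧸ H i) * Nat.card (H i) :=
      Subgroup.card_eq_card_quotient_mul_card_subgroup (H i)
    have h3 : Nat.card (H i) = orderOf (y i) := Nat.card_zpowers (y i)
    have h4 : p ^ (r + 1) ∣ orderOf (y i) :=
      pow_dvd_orderOf_pow hpp hJpos hcop hc0 (hx i hi)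
    have h5 : p ^ (r + 1) ≤ Nat.card (H i) := by
      rw [h3]
      exact Nat.le_of_dvd (orderOf_pos (y i)) h4
    calc Nat.card (K i) * p ^ (r + 1) ≤ Nat.card (G ⧸ H i) * Nat.card (H i) := by
          rw [h1]; exact Nat.mul_le_mul_left _ h5
      _ = N := h2.symm
  by_contra hcon
  push Not at hcon
  -- every character is bad somewhere
  letI : Fintype (G →* ℂˣ) := Fintype.ofFinite _
  have hcover : (Finset.univ : Finset (G →* ℂˣ)) ⊆
      s.biUnion (fun i => (Finset.univ.filter (fun χ => χ ∈ K i))) := by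
    intro χ _
    obtain ⟨i, hi, hχ⟩ := hcon χ
    exact Finset.mem_biUnion.2 ⟨i, hi, by simpa using hbad i χ hχ⟩
  have hXcard : (Finset.univ : Finset (G →* ℂˣ)).card = N := by
    rw [Finset.card_univ, Fintype.card_eq_nat_card]
    exact CommGroup.card_monoidHom_of_hasEnoughRootsOfUnity G ℂ
  have hKcard : ∀ i, (Finset.univ.filter (fun χ : G →* ℂˣ => χ ∈ K i)).card = Nat.card (K i) := by
    intro i
    rw [Nat.card_eq_fintype_card, Fintype.card_subtype]
  have h1 : N ≤ ∑ i ∈ s, Nat.card (K i) := by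
    calc N = (Finset.univ : Finset (G →* ℂˣ)).card := hXcard.symm
      _ ≤ (s.biUnion (fun i => (Finset.univ.filter (fun χ => χ ∈ K i)))).card :=
          Finset.card_le_card hcover
      _ ≤ ∑ i ∈ s, (Finset.univ.filter (fun χ : G →* ℂˣ => χ ∈ K i)).card :=
          Finset.card_biUnion_le
      _ = ∑ i ∈ s, Nat.card (K i) := Finset.sum_congr rfl (fun i _ => hKcard i)
  have h2 : (∑ i ∈ s, Nat.card (K i)) * p ^ (r + 1) ≤ r * N := by
    rw [Finset.sum_mul]
    calc ∑ i ∈ s, Nat.card (K i) * p ^ (r + 1) ≤ ∑ _i ∈ s, N := Finset.sum_le_sum hcardK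
      _ = r * N := by simp [hr]
  have h3 : r < p ^ (r + 1) := by
    calc r < 2 ^ r := Nat.lt_two_pow_self
      _ ≤ 2 ^ (r + 1) := Nat.pow_le_pow_right (by norm_num) (by omega)
      _ ≤ p ^ (r + 1) := Nat.pow_le_pow_left hpp.two_le _
  have h4 : N * p ^ (r + 1) ≤ r * N := le_trans (Nat.mul_le_mul_right _ h1) h2
  have h5 : r * N < p ^ (r + 1) * N := Nat.mul_lt_mul_of_pos_right h3 (Nat.pos_of_ne_zero hN0)
  rw [mul_comm N] at h4
  omega

end Fermat.Agent.S55.GR
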