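import Fermat.Agent.S55.GR.TamePrime
import Fermat.Agent.S55.GR.CharOrder

/-!
# S55 / GR-1 : tame cyclic cyclotomic characters with prescribed local degrees

`exists_tame_character`: for an odd prime `p`, a finite set `T` of primes, a finite set `B` of
numbers to avoid and `J`, there are a squarefree `m` all of whose prime factors avoid
`{p} ∪ T ∪ B`, and a character `χ` of `(ℤ/m)ˣ` of `p`-power order such that
`p ^ J ∣ orderOf (χ ℓ)` for every `ℓ ∈ T`.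

In field terms: the fixed field `E ⊆ ℚ(ζ_m)` of `ker χ` is a cyclic extension of `ℚ` of `p`-power
degree, tamely ramified, unramified at `p` and at `T`, in which every `ℓ ∈ T` has local degree
divisible by `p ^ J`.  (Input of the reciprocity law `Σ inv_v = 0`, see `coord/S55-GR.md`.)
-/

set_option autoImplicit false

namespace Fermat.Agent.S55.GR

open Finset

/-- Compatibility of `ZMod.unitsMap` with `ZMod.unitOfCoprime`. -/
lemma unitsMap_unitOfCoprime {n m : ℕ} (hd : n ∣ m) (x : ℕ) (h : x.Coprime m)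
    (h' : x.Coprime n) :
    ZMod.unitsMap hd (ZMod.unitOfCoprime x h) = ZMod.unitOfCoprime x h' := by
  ext
  rw [ZMod.unitsMap_def, Units.coe_map, ZMod.coe_unitOfCoprime, ZMod.coe_unitOfCoprime]
  simp

/-- If `c` is prime to `p` and `p ^ J ∣ orderOf x` then `p ^ J ∣ orderOf (x ^ c)`. -/
lemma pow_dvd_orderOf_pow_of_coprime {G : Type*} [Monoid G] {p : ℕ} {x : G} {J c : ℕ}
    (hc : Nat.Coprime p c) (hc0 : c ≠ 0) (hx : p ^ J ∣ orderOf x) :
    p ^ J ∣ orderOf (x ^ c) := by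
  rw [orderOf_pow' x hc0]
  set o := orderOf x
  set g := Nat.gcd o c
  have hgo : g ∣ o := Nat.gcd_dvd_left o c
  have hgc : g ∣ c := Nat.gcd_dvd_right o c
  have hod : o = g * (o / g) := (Nat.mul_div_cancel' hgo).symm
  have hcop : Nat.Coprime (p ^ J) g :=
    Nat.Coprime.coprime_dvd_right hgc (Nat.Coprime.pow_left J hc)
  rw [hod] at hx
  exact hcop.dvd_of_dvd_mul_left hx

/-- **GR-1 (Lemma 1).** Tame characters of `p`-power order with prescribed large orders at a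
finite set of primes. -/
theorem exists_tame_character {p : ℕ} [hpf : Fact p.Prime] (hp : Odd p) (T B : Finset ℕ)
    (hT : ∀ ℓ ∈ T, ℓ.Prime) (J : ℕ) :
    ∃ (m : ℕ) (χ : (ZMod m)ˣ →* ℂˣ), m ≠ 0 ∧ Squarefree m ∧
      (∀ q : ℕ, q.Prime → q ∣ m → q ≠ p ∧ q ∉ T ∧ q ∉ B) ∧
      (∀ ℓ ∈ T, Nat.Coprime ℓ m) ∧
      (∃ e : ℕ, orderOf χ = p ^ e) ∧
      ∀ ℓ ∈ T, ∀ h : Nat.Coprime ℓ m, p ^ J ∣ orderOf (χ (ZMod.unitOfCoprime ℓ h)) := by
  classical
  have hpp := hpf.out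
  set B' : Finset ℕ := insert p (T ∪ B) with hB'
  -- choose the primes
  have hex : ∀ ℓ : ℕ, ∃ q a : ℕ, ℓ ∈ T → (q.Prime ∧ q ≠ p ∧ q ∉ B' ∧ J + T.card ≤ a ∧
      ∃ h : Nat.Coprime ℓ q, orderOf (ZMod.unitOfCoprime ℓ h) = p ^ a) := by
    intro ℓ
    by_cases hℓ : ℓ ∈ T
    · obtain ⟨q, a, h1, h2, h3, h4, h5⟩ :=
        exists_prime_notMem_orderOf_eq hp (hT ℓ hℓ).two_le (J + T.card) B'
      exact ⟨q, a, fun _ => ⟨h1, h2, h3, h4, h5⟩⟩
    · exact ⟨0, 0, fun h => absurd h hℓ⟩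
  choose qf af hqa using hex
  set Q : Finset ℕ := T.image qf with hQ
  set m : ℕ := ∏ q ∈ Q, q with hm
  have hQprime : ∀ q ∈ Q, q.Prime := by
    intro q hq
    obtain ⟨ℓ, hℓ, rfl⟩ := Finset.mem_image.1 hq
    exact (hqa ℓ hℓ).1
  have hQB : ∀ q ∈ Q, q ∉ B' := by
    intro q hq
    obtain ⟨ℓ, hℓ, rfl⟩ := Finset.mem_image.1 hq
    exact (hqa ℓ hℓ).2.2.1
  have hm0 : m ≠ 0 := Finset.prod_ne_zero_iff.2 fun q hq => (hQprime q hq).ne_zero
  have hsq : Squarefree m := by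
    apply Finset.squarefree_prod_of_pairwise_isCoprime
    · intro a ha b hb hab
      show IsRelPrime a b
      rw [← Nat.coprime_iff_isRelPrime]
      exact (Nat.coprime_primes (hQprime a ha) (hQprime b hb)).2 hab
    · intro q hq
      exact (hQprime q hq).squarefree
  have hdiv : ∀ q : ℕ, q.Prime → q ∣ m → q ∈ Q := by
    intro q hq hqm
    obtain ⟨a, ha, hqa'⟩ := (Prime.dvd_finsetProd_iff hq.prime _).1 hqm
    have : q = a := (Nat.prime_dvd_prime_iff_eq hq (hQprime a ha)).1 hqa'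
    exact this ▸ ha
  have hfac : ∀ q : ℕ, q.Prime → q ∣ m → q ≠ p ∧ q ∉ T ∧ q ∉ B := by
    intro q hq hqm
    have h := hQB q (hdiv q hq hqm)
    simp only [hB', Finset.mem_insert, Finset.mem_union, not_or] at h
    exact ⟨h.1, h.2.1, h.2.2⟩
  have hcopT : ∀ ℓ ∈ T, Nat.Coprime ℓ m := by
    intro ℓ hℓ
    apply Nat.Coprime.prod_right
    intro q hq
    rw [Nat.coprime_primes (hT ℓ hℓ) (hQprime q hq)]
    rintro rfl
    have h := hQB ℓ hq
    simp only [hB', Finset.mem_insert, Finset.mem_union, not_or] at h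
    exact h.2.1 hℓ
  haveI : NeZero m := ⟨hm0⟩
  -- the elements of `(ZMod m)ˣ`
  let x : ℕ → (ZMod m)ˣ := fun ℓ =>
    if h : Nat.Coprime ℓ m then ZMod.unitOfCoprime ℓ h else 1
  have hx : ∀ ℓ ∈ T, p ^ (J + T.card) ∣ orderOf (x ℓ) := by
    intro ℓ hℓ
    obtain ⟨_, _, _, ha, hc, hord⟩ := hqa ℓ hℓ
    have hqm : qf ℓ ∣ m := Finset.dvd_prod_of_mem _ (Finset.mem_image_of_mem qf hℓ)
    have hxℓ : x ℓ = ZMod.unitOfCoprime ℓ (hcopT ℓ hℓ) := dif_pos (hcopT ℓ hℓ)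
    have h1 : orderOf (ZMod.unitsMap hqm (x ℓ)) ∣ orderOf (x ℓ) := orderOf_map_dvd _ _
    rw [hxℓ, unitsMap_unitOfCoprime hqm ℓ (hcopT ℓ hℓ) hc, hord, ← hxℓ] at h1
    exact dvd_trans (pow_dvd_pow p ha) h1
  obtain ⟨χ₀, hχ₀⟩ := exists_character_pow_dvd_orderOf (p := p) J T x hx
  -- kill the prime-to-`p` part
  set N := Nat.card (ZMod m)ˣ with hN
  have hN0 : N ≠ 0 := Nat.card_pos.ne'
  set c := N / p ^ N.factorization p with hcdef
  have hc0 : c ≠ 0 := by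
    have h := Nat.ordProj_mul_ordCompl_eq_self N p
    intro h0
    rw [← hcdef, h0, mul_zero] at h
    exact hN0 h.symm
  have hcop : Nat.Coprime p c := Nat.coprime_ordCompl hpp hN0
  refine ⟨m, χ₀ ^ c, hm0, hsq, hfac, hcopT, ?_, ?_⟩
  · -- `p`-power order
    have h1 : orderOf (χ₀ ^ c) ∣ p ^ N.factorization p := by
      apply orderOf_dvd_of_pow_eq_one
      apply MonoidHom.ext
      intro g
      change (χ₀ g ^ c) ^ (p ^ N.factorization p) = 1
      rw [← pow_mul, mul_comm, Nat.ordProj_mul_ordCompl_eq_self N p, ← map_pow, hN,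
        pow_card_eq_one', map_one]
    obtain ⟨k, _, hk⟩ := (Nat.dvd_prime_pow hpp).1 h1
    exact ⟨k, hk⟩
  · intro ℓ hℓ h
    have hxℓ : x ℓ = ZMod.unitOfCoprime ℓ h := dif_pos h
    have h1 := hχ₀ ℓ hℓ
    rw [hxℓ] at h1
    rw [MonoidHom.pow_apply]
    exact pow_dvd_orderOf_pow_of_coprime hcop hc0 h1

/-- **GR-1, subgroup form.** A subgroup `H ≤ (ℤ/m)ˣ` with cyclic quotient of `p`-power order in
which every `ℓ ∈ T` has order divisible by `p ^ J`. -/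
theorem exists_tame_cyclic_quotient {p : ℕ} [hpf : Fact p.Prime] (hp : Odd p) (T B : Finset ℕ)
    (hT : ∀ ℓ ∈ T, ℓ.Prime) (J : ℕ) :
    ∃ (m : ℕ) (H : Subgroup (ZMod m)ˣ), m ≠ 0 ∧ Squarefree m ∧
      (∀ q : ℕ, q.Prime → q ∣ m → q ≠ p ∧ q ∉ T ∧ q ∉ B) ∧
      (∀ ℓ ∈ T, Nat.Coprime ℓ m) ∧
      IsCyclic ((ZMod m)ˣ ⧸ H) ∧
      (∃ e : ℕ, Nat.card ((ZMod m)ˣ ⧸ H) = p ^ e) ∧
      ∀ ℓ ∈ T, ∀ h : Nat.Coprime ℓ m,
        p ^ J ∣ orderOf (QuotientGroup.mk' H (ZMod.unitOfCoprime ℓ h)) := by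
  classical
  have hpp := hpf.out
  obtain ⟨m, χ, hm0, hsq, hfac, hcopT, ⟨e, he⟩, hord⟩ := exists_tame_character hp T B hT J
  haveI : NeZero m := ⟨hm0⟩
  let φ : (ZMod m)ˣ ⧸ χ.ker →* ℂˣ := QuotientGroup.kerLift χ
  have hφinj : Function.Injective φ := QuotientGroup.kerLift_injective χ
  have hφ : ∀ g : (ZMod m)ˣ, φ (QuotientGroup.mk' χ.ker g) = χ g := fun g => rfl
  refine ⟨m, χ.ker, hm0, hsq, hfac, hcopT, ?_, ?_, ?_⟩
  · -- cyclic: finite group embedding in the units of a field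
    let ψ : (ZMod m)ˣ ⧸ χ.ker →* ℂ := (Units.coeHom ℂ).comp φ
    exact isCyclic_of_injective_ringHom ψ (fun a b h => hφinj (Units.ext h))
  · -- `p`-group
    apply IsPGroup.exists_card_eq
    intro g
    obtain ⟨g, rfl⟩ := QuotientGroup.mk'_surjective χ.ker g
    refine ⟨e, ?_⟩
    apply hφinj
    rw [map_pow, hφ, map_one]
    have h2 : χ ^ (p ^ e) = 1 := by rw [← he]; exact pow_orderOf_eq_one χ
    have h3 := congrArg (fun ψ : (ZMod m)ˣ →* ℂˣ => ψ g) h2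
    exact h3
  · intro ℓ hℓ h
    rw [← orderOf_injective φ hφinj, hφ]
    exact hord ℓ hℓ h

end Fermat.Agent.S55.GR
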