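import Mathlib

/-!
# S55 / GR-1b : primes `q` for which a given integer has prescribed `p`-power order

For an odd prime `p`, an integer `ℓ ≥ 2` and `a ≥ 0` there is a prime `q ≠ p` such that
`ℓ` has order exactly `p ^ (a + 1)` in `(ℤ/q)ˣ` (`q` is a prime divisor of
`Φ_p(ℓ ^ (p ^ a))`).  Different `a` give different `q`, so `q` can avoid any finite set.
-/

set_option autoImplicit false

namespace Fermat.Agent.S55.GR

open Finset

/-- `(∑_{i<p} N^i) * (N - 1) = N^p - 1` in `ℕ`. -/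
lemma geomSum_mul_pred (N n : ℕ) (hN : 1 ≤ N) :
    (∑ i ∈ range n, N ^ i) * (N - 1) = N ^ n - 1 := by
  have h := geom_sum_mul (N : ℤ) n
  have h1 : (1 : ℤ) ≤ (N : ℤ) ^ n := one_le_pow₀ (by exact_mod_cast hN)
  zify [hN, Nat.one_le_pow n N hN]
  exact_mod_cast h

/-- The value `Φ_p(N) = ∑_{i<p} N^i` is not divisible by `p²` (`p` odd, `N ≥ 2`). -/
lemma not_sq_dvd_geomSum {p : ℕ} [hpf : Fact p.Prime] (hp : Odd p) {N : ℕ} (hN : 2 ≤ N) :
    ¬ p ^ 2 ∣ ∑ i ∈ range p, N ^ i := by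
  intro hdvd
  have hpp := hpf.out
  set Φ := ∑ i ∈ range p, N ^ i with hΦ
  have hmul : Φ * (N - 1) = N ^ p - 1 := geomSum_mul_pred N p (by omega)
  have hpΦ : p ∣ Φ := dvd_trans (dvd_pow_self p (by norm_num)) hdvd
  have hpNp : p ∣ N ^ p - 1 := hmul ▸ dvd_mul_of_dvd_left hpΦ _
  -- `N ≡ 1 mod p`
  have hN1 : ((N : ZMod p)) = 1 := by
    have h1 : ((N ^ p - 1 : ℕ) : ZMod p) = 0 := (ZMod.natCast_eq_zero_iff _ _).2 hpNp
    rw [Nat.cast_sub (Nat.one_le_pow _ _ (by omega)), Nat.cast_pow, ZMod.pow_card, Nat.cast_one,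
      sub_eq_zero] at h1
    exact h1
  have hpN1 : p ∣ N - 1 := by
    rw [← ZMod.natCast_eq_zero_iff, Nat.cast_sub (by omega), hN1]; simp
  have hpN : ¬ p ∣ N := by
    intro h
    have : (N : ZMod p) = 0 := (ZMod.natCast_eq_zero_iff _ _).2 h
    rw [hN1] at this
    exact one_ne_zero this
  have hLTE := padicValNat.pow_sub_pow (p := p) hp (show 1 < N by omega) hpN1 hpN
    (n := p) hpp.ne_zero
  rw [one_pow, padicValNat_self] at hLTE
  have hΦ0 : Φ ≠ 0 := by
    intro h0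
    rw [h0, zero_mul] at hmul
    have : 2 ^ p ≤ N ^ p := Nat.pow_le_pow_left hN p
    have : 2 ≤ 2 ^ p := by
      calc 2 = 2 ^ 1 := by norm_num
        _ ≤ 2 ^ p := Nat.pow_le_pow_right (by norm_num) hpp.one_le
    omega
  have hN10 : N - 1 ≠ 0 := by omega
  rw [← hmul, padicValNat.mul hΦ0 hN10] at hLTE
  have hv : padicValNat p Φ = 1 := by omega
  have := (padicValNat_dvd_iff_le hΦ0).1 hdvd
  omega

/-- `Φ_p(N) > p` for `N ≥ 2`, `p ≥ 2`. -/
lemma lt_geomSum {p : ℕ} (hp : 2 ≤ p) {N : ℕ} (hN : 2 ≤ N) :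
    p < ∑ i ∈ range p, N ^ i := by
  calc p = ∑ _i ∈ range p, 1 := by simp
    _ < ∑ i ∈ range p, N ^ i := by
      apply Finset.sum_lt_sum
      · intro i _
        exact Nat.one_le_pow _ _ (by omega)
      · exact ⟨1, by simp; omega, by simp; omega⟩

/-- For an odd prime `p`, `ℓ ≥ 2` and `a`, there is a prime `q ≠ p` such that `ℓ` has order
exactly `p ^ (a + 1)` modulo `q`. -/
theorem exists_prime_orderOf_eq {p : ℕ} [hpf : Fact p.Prime] (hp : Odd p) {ℓ : ℕ} (hℓ : 2 ≤ ℓ)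
    (a : ℕ) :
    ∃ q : ℕ, q.Prime ∧ q ≠ p ∧ ∃ h : Nat.Coprime ℓ q,
      orderOf (ZMod.unitOfCoprime ℓ h) = p ^ (a + 1) := by
  have hpp := hpf.out
  set N := ℓ ^ (p ^ a) with hNdef
  have hN : 2 ≤ N := by
    calc 2 ≤ ℓ := hℓ
      _ = ℓ ^ 1 := (pow_one _).symm
      _ ≤ ℓ ^ (p ^ a) := Nat.pow_le_pow_right (by omega) (Nat.one_le_pow _ _ hpp.pos)
  set Φ := ∑ i ∈ range p, N ^ i with hΦ
  have hΦlt : p < Φ := lt_geomSum hpp.two_le hN
  have hΦ0 : Φ ≠ 0 := by omega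
  have hsq : ¬ p ^ 2 ∣ Φ := not_sq_dvd_geomSum hp hN
  -- the prime-to-`p` part of `Φ` is not `1`
  have hcompl : Φ / p ^ Φ.factorization p ≠ 1 := by
    intro h1
    have hprod := Nat.ordProj_mul_ordCompl_eq_self Φ p
    rw [h1, mul_one] at hprod
    have hle : Φ.factorization p ≤ 1 := by
      by_contra hgt
      push Not at hgt
      apply hsq
      rw [hpp.pow_dvd_iff_le_factorization hΦ0]
      omega
    have : Φ ≤ p := by
      rw [← hprod]
      calc p ^ Φ.factorization p ≤ p ^ 1 := Nat.pow_le_pow_right hpp.pos hle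
        _ = p := pow_one p
    omega
  obtain ⟨q, hq, hqd⟩ := Nat.exists_prime_and_dvd hcompl
  have hqΦ : q ∣ Φ := dvd_trans hqd (Nat.ordCompl_dvd Φ p)
  have hqp : q ≠ p := by
    rintro rfl
    exact Nat.not_dvd_ordCompl hpp hΦ0 hqd
  have : Fact q.Prime := ⟨hq⟩
  have hmul : Φ * (N - 1) = N ^ p - 1 := geomSum_mul_pred N p (by omega)
  have hNp : ((N : ZMod q)) ^ p = 1 := by
    have h1 : ((N ^ p - 1 : ℕ) : ZMod q) = 0 :=
      (ZMod.natCast_eq_zero_iff _ _).2 (hmul ▸ dvd_mul_of_dvd_left hqΦ _)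
    rw [Nat.cast_sub (Nat.one_le_pow _ _ (by omega)), Nat.cast_pow, Nat.cast_one,
      sub_eq_zero] at h1
    exact h1
  have hN1 : ((N : ZMod q)) ≠ 1 := by
    intro h1
    have h0 : ((Φ : ℕ) : ZMod q) = 0 := (ZMod.natCast_eq_zero_iff _ _).2 hqΦ
    rw [hΦ, Nat.cast_sum] at h0
    simp only [Nat.cast_pow, h1, one_pow, sum_const, card_range, nsmul_eq_mul, mul_one] at h0
    have : q ∣ p := (ZMod.natCast_eq_zero_iff _ _).1 h0
    exact hqp ((Nat.prime_dvd_prime_iff_eq hq hpp).1 this)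
  have hord : orderOf ((ℓ : ZMod q)) = p ^ (a + 1) := by
    apply orderOf_eq_prime_pow
    · rw [← Nat.cast_pow]; exact hN1
    · rw [pow_succ, pow_mul, ← Nat.cast_pow]; exact hNp
  have hcop : Nat.Coprime ℓ q := by
    rw [Nat.coprime_comm, hq.coprime_iff_not_dvd]
    intro hdvd
    have h0 : ((ℓ : ZMod q)) = 0 := (ZMod.natCast_eq_zero_iff _ _).2 hdvd
    rw [h0, orderOf_eq_zero_iff.2] at hord
    · exact (pow_pos hpp.pos _).ne' hord.symm
    · intro hfin
      obtain ⟨n, hn, hn1⟩ := hfin.exists_pow_eq_one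
      rw [zero_pow hn.ne'] at hn1
      exact zero_ne_one hn1
  refine ⟨q, hq, hqp, hcop, ?_⟩
  rw [← orderOf_units, ZMod.coe_unitOfCoprime]
  exact hord

/-- The prime of `exists_prime_orderOf_eq` can be chosen outside any finite set, at the cost of
increasing the exponent. -/
theorem exists_prime_notMem_orderOf_eq {p : ℕ} [hpf : Fact p.Prime] (hp : Odd p) {ℓ : ℕ}
    (hℓ : 2 ≤ ℓ) (A : ℕ) (B : Finset ℕ) :
    ∃ q a : ℕ, q.Prime ∧ q ≠ p ∧ q ∉ B ∧ A ≤ a ∧ ∃ h : Nat.Coprime ℓ q,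
      orderOf (ZMod.unitOfCoprime ℓ h) = p ^ a := by
  have hpp := hpf.out
  choose f hf1 hf2 hf3 hf4 using fun a : ℕ => exists_prime_orderOf_eq hp hℓ a
  have hinj : Function.Injective f := by
    intro a b hab
    have ha := hf4 a
    have hb := hf4 b
    have key : ∀ (q q' : ℕ) (e : q = q') (h : Nat.Coprime ℓ q) (h' : Nat.Coprime ℓ q'),
        orderOf (ZMod.unitOfCoprime ℓ h) = orderOf (ZMod.unitOfCoprime ℓ h') := by
      intro q q' e h h'
      subst e
      rfl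
    have := key _ _ hab (hf3 a) (hf3 b)
    rw [ha, hb] at this
    have := Nat.pow_right_injective hpp.two_le this
    omega
  by_contra hcon
  push Not at hcon
  -- all `f (A + i)` lie in `B`
  have hmem : ∀ i : ℕ, f (A + i) ∈ B := by
    intro i
    by_contra hni
    exact hcon (f (A + i)) (A + i + 1) (hf1 _) (hf2 _) hni (by omega) (hf3 _) (hf4 _)
  have hcard : (Finset.range (B.card + 1)).card ≤ B.card := by
    apply Finset.card_le_card_of_injOn (fun i => f (A + i))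
    · intro i _
      exact hmem i
    · intro i _ j _ hij
      have := hinj hij
      omega
  simp at hcard

end Fermat.Agent.S55.GR
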